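import Fermat.Agent.H93.Glue

set_option autoImplicit false

open UpperHalfPlane hiding I
open Real Complex
open scoped Manifold MatrixGroups ModularForm Topology

namespace Fermat.Agent.H93

open Derivative EisensteinSeries Matrix.SpecialLinearGroup CongruenceSubgroup ModularForm
open Fermat.Agent.H19

/-- A level-one modular form of weight `2` vanishes (weight given up to propositional
equality). -/
theorem levelOne_eq_zero_of_weight_eq_two {m : ℤ} (hm : m = 2) (A : ModularForm 𝒮ℒ m) :
    (A : ℍ → ℂ) = 0 := by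
  subst hm
  have h := levelOne_weight_two_rank_zero
  rw [rank_zero_iff_forall_zero] at h
  rw [h A]
  rfl

/-- `cosetFun` is additive over finite sums. -/
theorem cosetFun_sum {N : ℕ} {k : ℤ} {ι : Type*} (s : Finset ι) (φ : ι → ℍ → ℂ) (q : Q N) :
    cosetFun N k (∑ i ∈ s, φ i) q = ∑ i ∈ s, cosetFun N k (φ i) q := by
  unfold cosetFun
  exact SlashAction.sum_slash _ _

theorem cosetFun_congr_weight {N : ℕ} {k k' : ℤ} (h : k = k') (φ : ℍ → ℂ) (q : Q N) :
    cosetFun N k φ q = cosetFun N k' φ q := by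
  subst h; rfl

section

variable {N : ℕ} {J : Type*}

/-- The fundamental matrix attached to a family of modular forms `f j` of weights `k j` on
`Γ₀(N)` and a bijection `e` between the index set and the coset space. -/
noncomputable def fundMatrix (N : ℕ) (e : J ≃ Q N) (k : J → ℤ) (f : J → ℍ → ℂ) :
    J → J → ℍ → ℂ :=
  fun i j => cosetFun N (k j) (f j) (e i)

theorem fundMatrix_mdifferentiable (e : J ≃ Q N) (k : J → ℤ) (f : J → ℍ → ℂ)
    (hf : ∀ j, IsMF N (k j) (f j)) (i j : J) : MDiff (fundMatrix N e k f i j) :=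
  isMF_cosetFun_mdifferentiable (hf j) _

variable [Fintype J] [DecidableEq J]

/-- The ODE satisfied by the fundamental matrix. -/
theorem fundMatrix_ode (e : J ≃ Q N) (k : J → ℤ) (f : J → ℍ → ℂ)
    (hf : ∀ j, IsMF N (k j) (f j))
    (a : J → J → ℍ → ℂ)
    (ha : ∀ l j, ∃ A : ModularForm 𝒮ℒ (k j + 2 - k l), (A : ℍ → ℂ) = a l j)
    (hϑ : ∀ j, serreDerivative (k j) (f j) = ∑ l, a l j * f l) (i j : J) (z : ℍ) :
    normalizedDerivOfComplex (fundMatrix N e k f i j) z =
      ∑ l, fundMatrix N e k f i l z *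
        (a l j z + if l = j then (k j : ℂ) / 12 * E2 z else 0) := by
  have h1 : serreDerivative (k j) (fundMatrix N e k f i j) =
      ∑ l, a l j * fundMatrix N e k f i l := by
    unfold fundMatrix
    rw [← isMF_cosetFun_serreDerivative (hf j), hϑ j, cosetFun_sum]
    refine Finset.sum_congr rfl fun l _ => ?_
    obtain ⟨A, hA⟩ := ha l j
    rw [← hA]
    have hw : k j + 2 = (k j + 2 - k l) + k l := by ring
    rw [cosetFun_congr_weight hw, cosetFun_levelOne_mul]
  have h2 := congrFun h1 z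
  simp only [serreDerivative_apply, Finset.sum_apply, Pi.mul_apply] at h2
  have h3 : normalizedDerivOfComplex (fundMatrix N e k f i j) z =
      ∑ l, a l j z * fundMatrix N e k f i l z +
        (k j : ℂ) * 12⁻¹ * E2 z * fundMatrix N e k f i j z := by
    rw [← h2]; ring
  rw [h3]
  simp only [mul_add, Finset.sum_add_distrib, mul_ite, mul_zero, Finset.sum_ite_eq',
    Finset.mem_univ, if_true]
  congr 1
  · refine Finset.sum_congr rfl fun l _ => by ring
  · ring

/-- (G3) **Determinant ODE for the fundamental matrix**: `(det Φ)^12 / Δ^K` is constant,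
where `K` is the sum of the weights. -/
theorem detFun_fundMatrix_pow_twelve (e : J ≃ Q N) (k : J → ℤ) (f : J → ℍ → ℂ)
    (hf : ∀ j, IsMF N (k j) (f j))
    (a : J → J → ℍ → ℂ)
    (ha : ∀ l j, ∃ A : ModularForm 𝒮ℒ (k j + 2 - k l), (A : ℍ → ℂ) = a l j)
    (hϑ : ∀ j, serreDerivative (k j) (f j) = ∑ l, a l j * f l) (z w : ℍ) :
    detFun (fundMatrix N e k f) z ^ 12 * ModularForm.discriminant w ^ (∑ j, k j) =
      detFun (fundMatrix N e k f) w ^ 12 * ModularForm.discriminant z ^ (∑ j, k j) := by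
  refine detFun_pow_twelve_mul_discriminant_zpow (fundMatrix N e k f)
    (fundMatrix_mdifferentiable e k f hf)
    (fun l j z => a l j z + if l = j then (k j : ℂ) / 12 * E2 z else 0)
    (fundMatrix_ode e k f hf a ha hϑ) (∑ j, k j) (fun z => ?_) z w
  have hdiag : ∀ j, a j j z = 0 := by
    intro j
    obtain ⟨A, hA⟩ := ha j j
    rw [← hA, levelOne_eq_zero_of_weight_eq_two (by ring) A]
    rfl
  simp only [hdiag, zero_add, if_true]
  push_cast
  rw [Finset.sum_div, Finset.sum_mul]

/-- (G3') The determinant of the fundamental matrix is nowhere zero as soon as it is nonzero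
at one point. -/
theorem detFun_fundMatrix_ne_zero (e : J ≃ Q N) (k : J → ℤ) (f : J → ℍ → ℂ)
    (hf : ∀ j, IsMF N (k j) (f j))
    (a : J → J → ℍ → ℂ)
    (ha : ∀ l j, ∃ A : ModularForm 𝒮ℒ (k j + 2 - k l), (A : ℍ → ℂ) = a l j)
    (hϑ : ∀ j, serreDerivative (k j) (f j) = ∑ l, a l j * f l)
    {z₀ : ℍ} (h0 : detFun (fundMatrix N e k f) z₀ ≠ 0) (z : ℍ) :
    detFun (fundMatrix N e k f) z ≠ 0 := by
  intro hz
  have := detFun_fundMatrix_pow_twelve e k f hf a ha hϑ z z₀
  rw [hz] at this
  simp only [ne_eq, OfNat.ofNat_ne_zero, not_false_eq_true, zero_pow, zero_mul] at this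
  have h1 : detFun (fundMatrix N e k f) z₀ ^ 12 ≠ 0 := pow_ne_zero _ h0
  have h2 : ModularForm.discriminant z ^ (∑ j, k j) ≠ 0 :=
    zpow_ne_zero _ (discriminant_ne_zero z)
  exact mul_ne_zero h1 h2 this.symm

end

end Fermat.Agent.H93
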