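import Fermat.Agent.H93.Rank

set_option autoImplicit false

open UpperHalfPlane hiding I
open Real Complex
open scoped Manifold MatrixGroups ModularForm Topology

namespace Fermat.Agent.H93

open Matrix.SpecialLinearGroup CongruenceSubgroup ModularForm
open Fermat.Agent.H19

/-- Reindexing a free generating system along an equivalence. -/
theorem isGens_reindex_equiv {N : ℕ} {J J' : Type} {k : J → ℤ} {f : J → ℍ → ℂ}
    (h : IsGens N J k f) (e : J' ≃ J) : IsGens N J' (k ∘ e) (f ∘ e) where
  nonneg j := h.nonneg (e j)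
  isMF j := h.isMF (e j)
  gen K φ hφ := by
    classical
    obtain ⟨s, r, hr, hsum⟩ := h.gen K φ hφ
    refine ⟨s.map e.symm.toEmbedding, r ∘ e, ?_, ?_⟩
    · intro j hj
      obtain ⟨j', hj', rfl⟩ := Finset.mem_map.mp hj
      simpa using hr j' hj'
    · rw [hsum, Finset.sum_map]
      refine Finset.sum_congr rfl fun j _ => ?_
      simp
  uniq K s r hr hsum := by
    classical
    intro j hj
    have := h.uniq K (s.map e.toEmbedding) (r ∘ e.symm) (by
      intro j' hj'
      obtain ⟨j'', hj'', rfl⟩ := Finset.mem_map.mp hj'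
      simpa using hr j'' hj'') (by
      rw [Finset.sum_map]
      simpa using hsum) (e j) (Finset.mem_map_of_mem _ hj)
    simpa using this

/-- The coset vector of a form at a point. -/
noncomputable def cosetVec (N : ℕ) (k : ℤ) (φ : ℍ → ℂ) (z : ℍ) : Q N → ℂ :=
  fun q => cosetFun N k φ q z

/-- The coset vector of any modular form lies in the span of the coset vectors of the
generators. -/
theorem cosetVec_mem_span {N : ℕ} {J : Type} {k : J → ℤ} {f : J → ℍ → ℂ} (h : IsGens N J k f)
    {K : ℤ} {φ : ℍ → ℂ} (hφ : IsMF N K φ) (z : ℍ) :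
    cosetVec N K φ z ∈ Submodule.span ℂ (Set.range fun j => cosetVec N (k j) (f j) z) := by
  obtain ⟨s, r, hr, hsum⟩ := h.gen K φ hφ
  have : cosetVec N K φ z = ∑ j ∈ s, r j z • cosetVec N (k j) (f j) z := by
    funext q
    simp only [cosetVec, Finset.sum_apply, Pi.smul_apply, smul_eq_mul]
    rw [hsum, cosetFun_sum, Finset.sum_apply]
    refine Finset.sum_congr rfl fun j hj => ?_
    have hw : K = (K - k j) + k j := by ring
    rw [cosetFun_congr_weight hw, cosetFun_isMF_one_mul (hr j hj)]
    rfl
  rw [this]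
  exact Submodule.sum_mem _ fun j _ =>
    Submodule.smul_mem _ _ (Submodule.subset_span ⟨j, rfl⟩)

/-- **DIM-RANK**: a free generating system of `M_*(Γ₀(N))` can be indexed by the coset space
(so it has exactly `μ` elements), with coset matrix invertible at some point, as soon as there
exist `μ` forms with independent coset vectors at some point. -/
theorem isGens_reindex (N : ℕ) [NeZero N] {J : Type} {k : J → ℤ} {f : J → ℍ → ℂ}
    (h : IsGens N J k f)
    (hind : ∃ (K : Q N → ℤ) (H : Q N → ℍ → ℂ) (z₁ : ℍ), (∀ i, IsMF N (K i) (H i)) ∧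
      (Matrix.of fun q i => cosetFun N (K i) (H i) q z₁ : Matrix (Q N) (Q N) ℂ).det ≠ 0) :
    ∃ e : Q N ≃ J, ∃ z₁ : ℍ, (Phi N (k ∘ e) (f ∘ e) z₁).det ≠ 0 := by
  classical
  obtain ⟨K, H, z₁, hH, hdet⟩ := hind
  -- the vectors
  let v : J → (Q N → ℂ) := fun j => cosetVec N (k j) (f j) z₁
  let u : Q N → (Q N → ℂ) := fun i => cosetVec N (K i) (H i) z₁
  -- `u` is linearly independent, hence spans
  have hu_li : LinearIndependent ℂ u := by
    have hunit : IsUnit (Matrix.of fun q i => cosetFun N (K i) (H i) q z₁ :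
        Matrix (Q N) (Q N) ℂ) := by
      rw [Matrix.isUnit_iff_isUnit_det]
      exact isUnit_iff_ne_zero.mpr hdet
    have := Matrix.linearIndependent_cols_iff_isUnit.mpr hunit
    exact this
  have hu_top : Submodule.span ℂ (Set.range u) = ⊤ :=
    hu_li.span_eq_top_of_card_eq_finrank' (by rw [Module.finrank_fintype_fun_eq_card])
  have hv_top : Submodule.span ℂ (Set.range v) = ⊤ := by
    rw [eq_top_iff, ← hu_top, Submodule.span_le]
    rintro _ ⟨i, rfl⟩
    exact cosetVec_mem_span h (hH i) z₁
  -- extract a basis among the `v j`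
  obtain ⟨κ, a', ha'inj, ha'span, ha'li⟩ := exists_linearIndependent' ℂ v
  rw [hv_top] at ha'span
  let b : Module.Basis κ ℂ (Q N → ℂ) := Module.Basis.mk ha'li ha'span.ge
  have : Finite κ := Module.Finite.finite_basis b
  letI : Fintype κ := Fintype.ofFinite κ
  have hcard : Fintype.card (Q N) = Fintype.card κ := by
    rw [← Module.finrank_eq_card_basis b, Module.finrank_fintype_fun_eq_card]
  let e₀ : Q N ≃ κ := Fintype.equivOfCardEq hcard
  let a : Q N → J := a' ∘ e₀
  have ha : Function.Injective a := ha'inj.comp e₀.injective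
  have hli : LinearIndependent ℂ (fun i : Q N => v (a i)) :=
    ha'li.comp e₀ e₀.injective
  have hdet' : (Phi N (k ∘ a) (f ∘ a) z₁).det ≠ 0 := by
    have hunit : IsUnit (Phi N (k ∘ a) (f ∘ a) z₁) := by
      rw [← Matrix.linearIndependent_cols_iff_isUnit]
      exact hli
    exact isUnit_iff_ne_zero.mp ((Matrix.isUnit_iff_isUnit_det _).mp hunit)
  have hsurj := surjective_of_isGens h a ha z₁ hdet'
  exact ⟨Equiv.ofBijective a ⟨ha, hsurj⟩, z₁, hdet'⟩

end Fermat.Agent.H93
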