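import Mathlib.Analysis.Calculus.Deriv.Mul
import Mathlib.Analysis.Calculus.Deriv.Add
import Mathlib.LinearAlgebra.Matrix.Determinant.Basic
import Mathlib.Analysis.Complex.Basic

set_option autoImplicit false

namespace Fermat.Agent.H93

open Matrix Equiv

/-- Jacobi's formula in column form: the derivative of a determinant is the sum over the columns
of the determinants obtained by differentiating one column. -/
theorem hasDerivAt_det_updateCol {n : Type*} [Fintype n] [DecidableEq n]
    (M : ℂ → Matrix n n ℂ) (M' : Matrix n n ℂ) (x : ℂ)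
    (h : ∀ i j, HasDerivAt (fun t => M t i j) (M' i j) x) :
    HasDerivAt (fun t => (M t).det)
      (∑ j, ((M x).updateCol j (fun i => M' i j)).det) x := by
  have key : ∀ σ : Perm n, HasDerivAt (fun t => ∏ i, M t (σ i) i)
      (∑ j, ∏ i, ((M x).updateCol j (fun i => M' i j)) (σ i) i) x := by
    intro σ
    have := HasDerivAt.fun_finsetProd (u := Finset.univ) (f := fun i t => M t (σ i) i)
      (f' := fun i => M' (σ i) i) (x := x) (fun i _ => h (σ i) i)
    refine this.congr_deriv ?_
    refine Finset.sum_congr rfl fun j _ => ?_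
    rw [← Finset.mul_prod_erase Finset.univ _ (Finset.mem_univ j)]
    rw [smul_eq_mul, mul_comm]
    congr 1
    · simp
    · refine Finset.prod_congr rfl fun i hi => ?_
      have hij : i ≠ j := Finset.ne_of_mem_erase hi
      simp [hij]
  have h2 : HasDerivAt (fun t => ∑ σ : Perm n, ((Perm.sign σ : ℤ) : ℂ) * ∏ i, M t (σ i) i)
      (∑ σ : Perm n, ((Perm.sign σ : ℤ) : ℂ) *
        ∑ j, ∏ i, ((M x).updateCol j (fun i => M' i j)) (σ i) i) x :=
    HasDerivAt.fun_sum fun σ _ => (key σ).const_mul _
  have e1 : (fun t => (M t).det) =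
      fun t => ∑ σ : Perm n, ((Perm.sign σ : ℤ) : ℂ) * ∏ i, M t (σ i) i := by
    funext t
    rw [Matrix.det_apply']
  rw [e1]
  refine h2.congr_deriv ?_
  simp_rw [Matrix.det_apply', Finset.mul_sum]
  rw [Finset.sum_comm]

/-- If `M' = M * B` (entrywise derivative), then `(det M)' = tr B * det M`. -/
theorem hasDerivAt_det_of_mul {n : Type*} [Fintype n] [DecidableEq n]
    (M : ℂ → Matrix n n ℂ) (B : Matrix n n ℂ) (x : ℂ)
    (h : ∀ i j, HasDerivAt (fun t => M t i j) (∑ l, M x i l * B l j) x) :
    HasDerivAt (fun t => (M t).det) ((∑ j, B j j) * (M x).det) x := by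
  have := hasDerivAt_det_updateCol M (Matrix.of fun i j => ∑ l, M x i l * B l j) x
    (fun i j => by simpa using h i j)
  refine this.congr_deriv ?_
  rw [Finset.sum_mul]
  refine Finset.sum_congr rfl fun j _ => ?_
  have := Matrix.det_updateCol_sum (M x) j (fun l => B l j)
  simp only [smul_eq_mul] at this
  rw [← this]
  congr 1
  ext i k
  simp [Matrix.updateCol_apply, mul_comm]

end Fermat.Agent.H93
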