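import Fermat.Agent.H93.RamanujanDelta
import Fermat.Agent.H93.DetDeriv
import Mathlib.Analysis.Calculus.MeanValue
import Mathlib.Analysis.Calculus.Deriv.ZPow

set_option autoImplicit false

open UpperHalfPlane hiding I
open Real Complex
open scoped Manifold MatrixGroups ModularForm Topology

namespace Fermat.Agent.H93

open Derivative ModularForm EisensteinSeries Matrix

section

variable {n : Type*} [Fintype n] [DecidableEq n]

/-- The determinant of a matrix of functions on the upper half plane. -/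
noncomputable def detFun (Φ : n → n → ℍ → ℂ) (z : ℍ) : ℂ :=
  Matrix.det (Matrix.of fun i j => Φ i j z)

theorem detFun_mdifferentiable (Φ : n → n → ℍ → ℂ) (hΦ : ∀ i j, MDiff (Φ i j)) :
    MDiff (detFun Φ) := by
  have : detFun Φ = fun z => ∑ σ : Equiv.Perm n, ((Equiv.Perm.sign σ : ℤ) : ℂ) *
      ∏ i, Φ (σ i) i z := by
    funext z
    simp [detFun, Matrix.det_apply']
  rw [this, UpperHalfPlane.mdifferentiable_iff]
  have h1 : ∀ i j, DifferentiableOn ℂ (Φ i j ∘ ofComplex) upperHalfPlaneSet := fun i j =>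
    UpperHalfPlane.mdifferentiable_iff.mp (hΦ i j)
  have : (fun z => ∑ σ : Equiv.Perm n, ((Equiv.Perm.sign σ : ℤ) : ℂ) *
      ∏ i, Φ (σ i) i z) ∘ ofComplex = fun t => ∑ σ : Equiv.Perm n,
      ((Equiv.Perm.sign σ : ℤ) : ℂ) * ∏ i, (Φ (σ i) i ∘ ofComplex) t := by
    funext t; simp
  rw [this]
  refine DifferentiableOn.fun_sum fun σ _ => ?_
  refine DifferentiableOn.const_mul ?_ _
  exact DifferentiableOn.fun_finsetProd fun i _ => h1 (σ i) i

/-- Derivative of the determinant under the ODE `D Φ = Φ * B`. -/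
theorem normalizedDeriv_detFun (Φ : n → n → ℍ → ℂ) (hΦ : ∀ i j, MDiff (Φ i j))
    (B : n → n → ℍ → ℂ)
    (hode : ∀ i j z, normalizedDerivOfComplex (Φ i j) z = ∑ l, Φ i l z * B l j z) (z : ℍ) :
    normalizedDerivOfComplex (detFun Φ) z = (∑ j, B j j z) * detFun Φ z := by
  have hz : (z : ℂ) ∈ upperHalfPlaneSet := z.2
  have hpi : (2 * (π : ℂ) * I) ≠ 0 := by simp [Real.pi_ne_zero]
  -- entrywise derivative
  have hent : ∀ i j, HasDerivAt (fun t => (Φ i j ∘ ofComplex) t)
      (∑ l, Φ i l z * ((2 * π * I) * B l j z)) (z : ℂ) := by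
    intro i j
    have hd : DifferentiableAt ℂ (Φ i j ∘ ofComplex) (z : ℂ) :=
      UpperHalfPlane.mdifferentiableAt_iff.mp (hΦ i j z)
    have h := hode i j z
    simp only [normalizedDerivOfComplex] at h
    have : deriv (Φ i j ∘ ofComplex) (z : ℂ) = ∑ l, Φ i l z * ((2 * π * I) * B l j z) := by
      have h' : deriv (Φ i j ∘ ofComplex) (z : ℂ) = (2 * π * I) * ∑ l, Φ i l z * B l j z := by
        rw [← h]; field_simp
      rw [h', Finset.mul_sum]
      refine Finset.sum_congr rfl fun l _ => by ring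
    rw [← this]
    exact hd.hasDerivAt
  have hM := hasDerivAt_det_of_mul
    (fun t => Matrix.of fun i j => (Φ i j ∘ ofComplex) t)
    (Matrix.of fun l j => (2 * π * I) * B l j z) (z : ℂ)
    (fun i j => by simpa using hent i j)
  have hcomp : (detFun Φ ∘ ofComplex) = fun t =>
      (Matrix.of fun i j => (Φ i j ∘ ofComplex) t).det := by
    funext t; simp [detFun]
  simp only [normalizedDerivOfComplex]
  rw [hcomp, hM.deriv]
  have : (Matrix.of fun i j => (Φ i j ∘ ofComplex) (z : ℂ)) = Matrix.of fun i j => Φ i j z := by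
    ext i j; simp
  rw [this]
  simp only [Matrix.of_apply, detFun, ← Finset.mul_sum]
  field_simp

/-- **Determinant ODE**: if `D Φ = Φ * B` with `tr B = c * E₂` and `K = 12 c`, then
`(det Φ)^12 / Δ^K` is constant on the upper half plane. -/
theorem detFun_pow_twelve_mul_discriminant_zpow (Φ : n → n → ℍ → ℂ) (hΦ : ∀ i j, MDiff (Φ i j))
    (B : n → n → ℍ → ℂ)
    (hode : ∀ i j z, normalizedDerivOfComplex (Φ i j) z = ∑ l, Φ i l z * B l j z)
    (K : ℤ) (htr : ∀ z, ∑ j, B j j z = (K : ℂ) / 12 * E2 z) (z w : ℍ) :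
    detFun Φ z ^ 12 * ModularForm.discriminant w ^ K =
      detFun Φ w ^ 12 * ModularForm.discriminant z ^ K := by
  have hpi : (2 * (π : ℂ) * I) ≠ 0 := by simp [Real.pi_ne_zero]
  have hWd : MDiff (detFun Φ) := detFun_mdifferentiable Φ hΦ
  have hΔd : MDiff (ModularForm.discriminant : ℍ → ℂ) := by
    have := (CuspForm.discriminant).holo'
    exact this
  -- the function g = W^12 * Δ^(-K) on ℂ
  let g : ℂ → ℂ := fun t => (detFun Φ ∘ ofComplex) t ^ 12 *
    ((ModularForm.discriminant ∘ ofComplex) t) ^ (-K)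
  have hgd : ∀ t ∈ upperHalfPlaneSet, HasDerivAt g 0 t := by
    intro t ht
    have hWt : HasDerivAt (detFun Φ ∘ ofComplex) ((2 * π * I) * ((K : ℂ) / 12 * E2 ⟨t, ht⟩ * detFun Φ ⟨t, ht⟩)) t := by
      have hd : DifferentiableAt ℂ (detFun Φ ∘ ofComplex) ((⟨t, ht⟩ : ℍ) : ℂ) :=
        UpperHalfPlane.mdifferentiableAt_iff.mp (hWd ⟨t, ht⟩)
      have h := normalizedDeriv_detFun Φ hΦ B hode ⟨t, ht⟩
      rw [htr] at h
      simp only [normalizedDerivOfComplex] at h
      have h' : deriv (detFun Φ ∘ ofComplex) t = (2 * π * I) * ((K : ℂ) / 12 * E2 ⟨t, ht⟩ * detFun Φ ⟨t, ht⟩) := by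
        have : deriv (detFun Φ ∘ ofComplex) ((⟨t, ht⟩ : ℍ) : ℂ) =
            (2 * π * I) * ((K : ℂ) / 12 * E2 ⟨t, ht⟩ * detFun Φ ⟨t, ht⟩) := by
          rw [← h]; field_simp
        exact this
      rw [← h']
      exact hd.hasDerivAt
    have hΔt : HasDerivAt (ModularForm.discriminant ∘ ofComplex)
        ((2 * π * I) * (E2 ⟨t, ht⟩ * ModularForm.discriminant ⟨t, ht⟩)) t := by
      have hd : DifferentiableAt ℂ (ModularForm.discriminant ∘ ofComplex) ((⟨t, ht⟩ : ℍ) : ℂ) :=
        UpperHalfPlane.mdifferentiableAt_iff.mp (hΔd ⟨t, ht⟩)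
      have h := normalizedDeriv_discriminant ⟨t, ht⟩
      simp only [normalizedDerivOfComplex] at h
      have h' : deriv (ModularForm.discriminant ∘ ofComplex) ((⟨t, ht⟩ : ℍ) : ℂ) =
          (2 * π * I) * (E2 ⟨t, ht⟩ * ModularForm.discriminant ⟨t, ht⟩) := by
        rw [← h]; field_simp
      have h'' : deriv (ModularForm.discriminant ∘ ofComplex) t =
          (2 * π * I) * (E2 ⟨t, ht⟩ * ModularForm.discriminant ⟨t, ht⟩) := h'
      rw [← h'']
      exact hd.hasDerivAt
    have hΔne : (ModularForm.discriminant ∘ ofComplex) t ≠ 0 := by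
      simp only [Function.comp_apply]
      exact discriminant_ne_zero _
    have h1 := hWt.fun_pow 12
    have h2 := hasDerivAt_zpow (-K) ((ModularForm.discriminant ∘ ofComplex) t) (Or.inl hΔne)
    have h3 := h2.comp t hΔt
    have h4 := h1.mul h3
    refine h4.congr_deriv ?_
    have e1 : (detFun Φ ∘ ofComplex) t = detFun Φ ⟨t, ht⟩ := by
      simp [ofComplex_apply_of_im_pos ht]
    have e2 : (ModularForm.discriminant ∘ ofComplex) t = ModularForm.discriminant ⟨t, ht⟩ := by
      simp [ofComplex_apply_of_im_pos ht]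
    have e3 : ((fun x : ℂ => x ^ (-K)) ∘ ModularForm.discriminant ∘ ofComplex) t =
        ModularForm.discriminant ⟨t, ht⟩ ^ (-K) := by
      simp [ofComplex_apply_of_im_pos ht]
    rw [e3, e1, e2]
    have hΔne' : ModularForm.discriminant ⟨t, ht⟩ ≠ 0 := discriminant_ne_zero _
    rw [zpow_sub_one₀ hΔne']
    field_simp
    push_cast
    ring
  have hconst := isOpen_upperHalfPlaneSet.is_const_of_deriv_eq_zero
    (Convex.isPreconnected (convex_halfSpace_im_gt 0))
    (f := g) (fun t ht => (hgd t ht).differentiableAt.differentiableWithinAt)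
    (fun t ht => (hgd t ht).deriv) z.2 w.2
  simp only [g, Function.comp_apply, ofComplex_apply] at hconst
  have hz := discriminant_ne_zero z
  have hw := discriminant_ne_zero w
  rw [_root_.zpow_neg, _root_.zpow_neg] at hconst
  have hz' : ModularForm.discriminant z ^ K ≠ 0 := zpow_ne_zero _ hz
  have hw' : ModularForm.discriminant w ^ K ≠ 0 := zpow_ne_zero _ hw
  field_simp at hconst
  linear_combination hconst

/-- Under the determinant ODE, the determinant is either identically zero or nowhere zero. -/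
theorem detFun_ne_zero_of_ode (Φ : n → n → ℍ → ℂ) (hΦ : ∀ i j, MDiff (Φ i j))
    (B : n → n → ℍ → ℂ)
    (hode : ∀ i j z, normalizedDerivOfComplex (Φ i j) z = ∑ l, Φ i l z * B l j z)
    (K : ℤ) (htr : ∀ z, ∑ j, B j j z = (K : ℂ) / 12 * E2 z)
    {z₀ : ℍ} (h0 : detFun Φ z₀ ≠ 0) (z : ℍ) : detFun Φ z ≠ 0 := by
  intro hz
  have := detFun_pow_twelve_mul_discriminant_zpow Φ hΦ B hode K htr z z₀
  rw [hz] at this
  simp only [ne_eq, OfNat.ofNat_ne_zero, not_false_eq_true, zero_pow, zero_mul] at this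
  have h1 : detFun Φ z₀ ^ 12 ≠ 0 := pow_ne_zero _ h0
  have h2 : ModularForm.discriminant z ^ K ≠ 0 := zpow_ne_zero _ (discriminant_ne_zero z)
  exact mul_ne_zero h1 h2 this.symm

end

end Fermat.Agent.H93
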