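import Mathlib.NumberTheory.ModularForms.Derivative
import Mathlib.NumberTheory.ModularForms.Basic
import Mathlib.NumberTheory.ModularForms.BoundedAtCusp
import Mathlib.NumberTheory.ModularForms.EisensteinSeries.E2.Summable
import Mathlib.Analysis.Complex.Liouville

set_option autoImplicit false

open UpperHalfPlane hiding I
open Real Complex
open scoped Manifold MatrixGroups ModularForm Topology

namespace Fermat.Agent.H93

open Derivative EisensteinSeries Matrix.SpecialLinearGroup

/-- Cauchy estimate: the normalised derivative of a holomorphic function bounded at `i∞` is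
bounded at `i∞`. -/
theorem isBoundedAtImInfty_normalizedDeriv {h : ℍ → ℂ} (hh : MDiff h)
    (hb : IsBoundedAtImInfty h) : IsBoundedAtImInfty (normalizedDerivOfComplex h) := by
  rw [isBoundedAtImInfty_iff] at hb ⊢
  obtain ⟨M, A, hMA⟩ := hb
  refine ⟨‖(2 * π * I : ℂ)⁻¹‖ * (M / 1), max A 0 + 2, fun z hz => ?_⟩
  have hdiff : DifferentiableOn ℂ (h ∘ ofComplex) upperHalfPlaneSet :=
    UpperHalfPlane.mdifferentiable_iff.mp hh
  have hzim : max A 0 + 2 ≤ (z : ℂ).im := hz
  have hsub : Metric.closedBall (z : ℂ) 1 ⊆ upperHalfPlaneSet := by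
    intro w hw
    have h1 : |w.im - (z : ℂ).im| ≤ 1 := by
      have := Complex.abs_im_le_norm (w - z)
      rw [Complex.sub_im] at this
      exact this.trans (by simpa [dist_eq_norm] using hw)
    have h2 := abs_le.mp h1
    have h3 : (0 : ℝ) ≤ max A 0 := le_max_right _ _
    show 0 < w.im
    linarith [h2.1]
  have hd : DiffContOnCl ℂ (h ∘ ofComplex) (Metric.ball (z : ℂ) 1) := by
    refine DifferentiableOn.diffContOnCl ?_
    rw [closure_ball _ one_ne_zero]
    exact hdiff.mono hsub
  have hC : ∀ w ∈ Metric.sphere (z : ℂ) 1, ‖(h ∘ ofComplex) w‖ ≤ M := by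
    intro w hw
    have hwc : w ∈ Metric.closedBall (z : ℂ) 1 := Metric.sphere_subset_closedBall hw
    have hwpos : 0 < w.im := hsub hwc
    have h1 : |w.im - (z : ℂ).im| ≤ 1 := by
      have := Complex.abs_im_le_norm (w - z)
      rw [Complex.sub_im] at this
      exact this.trans (by simpa [dist_eq_norm] using hwc)
    have h2 := abs_le.mp h1
    have h3 : A ≤ max A 0 := le_max_left _ _
    simp only [Function.comp_apply, ofComplex_apply_of_im_pos hwpos]
    apply hMA
    show A ≤ w.im
    linarith [h2.1]
  have := Complex.norm_deriv_le_of_forall_mem_sphere_norm_le one_pos hd hC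
  simp only [normalizedDerivOfComplex, norm_mul]
  exact mul_le_mul_of_nonneg_left this (norm_nonneg _)

/-- The Serre derivative of a holomorphic function bounded at `i∞` is bounded at `i∞`. -/
theorem isBoundedAtImInfty_serreDerivative {h : ℍ → ℂ} (k : ℂ) (hh : MDiff h)
    (hb : IsBoundedAtImInfty h) : IsBoundedAtImInfty (serreDerivative k h) := by
  have h1 := isBoundedAtImInfty_normalizedDeriv hh hb
  have h2 : IsBoundedAtImInfty (fun z : ℍ => k * 12⁻¹ * E2 z * h z) := by
    have hc : IsBoundedAtImInfty (fun _ : ℍ => k * 12⁻¹) :=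
      Filter.const_boundedAtFilter _ _
    have := (hc.mul isBoundedAtImInfty_E2).mul hb
    exact this
  have := h1.sub h2
  exact this

/-- **Serre derivative preserves modular forms** (for arithmetic subgroups inside `SL(2, ℤ)`). -/
theorem exists_modularForm_serreDerivative (Γ : Subgroup (GL (Fin 2) ℝ)) [Γ.IsArithmetic]
    (hΓ : Γ ≤ (mapGL ℝ : SL(2, ℤ) →* GL (Fin 2) ℝ).range) (k : ℤ) (f : ModularForm Γ k) :
    ∃ g : ModularForm Γ (k + 2), (g : ℍ → ℂ) = serreDerivative k (f : ℍ → ℂ) := by
  have hf : MDiff (f : ℍ → ℂ) := ModularFormClass.holo f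
  refine ⟨{ toFun := serreDerivative k (f : ℍ → ℂ)
            slash_action_eq' := ?_
            holo' := serreDerivative_mdifferentiable _ hf
            bdd_at_cusps' := ?_ }, rfl⟩
  · intro γ hγ
    obtain ⟨γ', rfl⟩ := hΓ hγ
    have hinv : (f : ℍ → ℂ) ∣[k] γ' = f := by
      have := SlashInvariantFormClass.slash_action_eq f _ hγ
      exact this
    exact serreDerivative_slash_invariant hf hinv
  · intro c hc
    have hc' := (Subgroup.IsArithmetic.isCusp_iff_isCusp_SL2Z Γ).mp hc
    rw [OnePoint.isBoundedAt_iff_forall_SL2Z hc']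
    intro γ hγ
    rw [serreDerivative_slash_equivariant hf]
    have hb : IsBoundedAtImInfty ((f : ℍ → ℂ) ∣[k] γ) := by
      have := ModularFormClass.bdd_at_cusps f hc
      rw [OnePoint.isBoundedAt_iff_forall_SL2Z hc'] at this
      exact this γ hγ
    exact isBoundedAtImInfty_serreDerivative _ (hf.slash k _) hb

end Fermat.Agent.H93
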