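import Fermat.Agent.H19.Defs
import Fermat.Agent.H93.DetODE
import Fermat.Agent.H93.SerreDerivForm
import Mathlib.NumberTheory.ModularForms.LevelOne.DimensionFormula

set_option autoImplicit false

open UpperHalfPlane hiding I
open Real Complex
open scoped Manifold MatrixGroups ModularForm Topology

namespace Fermat.Agent.H93

open Derivative EisensteinSeries Matrix.SpecialLinearGroup CongruenceSubgroup ModularForm
open Fermat.Agent.H19

/-- (G1) The Serre derivative maps `M_k(Γ₀(N))` to `M_{k+2}(Γ₀(N))`. -/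
theorem isMF_serreDerivative {N : ℕ} {k : ℤ} {φ : ℍ → ℂ} (h : IsMF N k φ) :
    IsMF N (k + 2) (serreDerivative k φ) where
  holo := serreDerivative_mdifferentiable _ h.holo
  inv γ hγ := serreDerivative_slash_invariant h.holo (h.inv γ hγ)
  bdd g := by
    rw [serreDerivative_slash_equivariant h.holo]
    exact isBoundedAtImInfty_serreDerivative _ (h.holo.slash k _) (h.bdd g)

/-- A modular form in the sense of `IsMF` is invariant under slashing by elements of `Γ₀(N)`
on the left of any other slash. -/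
theorem isMF_slash_mul_of_mem {N : ℕ} {k : ℤ} {φ : ℍ → ℂ} (h : IsMF N k φ)
    {γ : SL(2, ℤ)} (hγ : γ ∈ Gamma0 N) (g : SL(2, ℤ)) : φ ∣[k] (γ * g) = φ ∣[k] g := by
  rw [SlashAction.slash_mul, h.inv γ hγ]

/-- Two representatives of the same coset give the same translate. -/
theorem isMF_slash_inv_eq_of_mk_eq {N : ℕ} {k : ℤ} {φ : ℍ → ℂ} (h : IsMF N k φ)
    {g g' : SL(2, ℤ)} (hgg' : (QuotientGroup.mk g : Q N) = QuotientGroup.mk g') :
    φ ∣[k] g⁻¹ = φ ∣[k] g'⁻¹ := by
  have hmem : g'⁻¹ * g ∈ Gamma0 N := QuotientGroup.eq.mp hgg'.symm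
  have : g'⁻¹ = (g'⁻¹ * g) * g⁻¹ := by group
  rw [this, isMF_slash_mul_of_mem h hmem]

theorem isMF_cosetFun_mk {N : ℕ} {k : ℤ} {φ : ℍ → ℂ} (h : IsMF N k φ) (g : SL(2, ℤ)) :
    cosetFun N k φ (QuotientGroup.mk g) = φ ∣[k] g⁻¹ := by
  unfold cosetFun
  exact isMF_slash_inv_eq_of_mk_eq h (QuotientGroup.out_eq' _)

/-- (G2) The translates of a modular form are permuted by the slash action of `SL(2, ℤ)`. -/
theorem isMF_cosetFun_slash {N : ℕ} {k : ℤ} {φ : ℍ → ℂ} (h : IsMF N k φ) (q : Q N)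
    (γ : SL(2, ℤ)) : (cosetFun N k φ q) ∣[k] γ = cosetFun N k φ (γ⁻¹ • q) := by
  obtain ⟨g, rfl⟩ := QuotientGroup.mk_surjective q
  rw [MulAction.Quotient.smul_mk, isMF_cosetFun_mk h, isMF_cosetFun_mk h,
    ← SlashAction.slash_mul]
  congr 1
  simp [mul_inv_rev]

theorem isMF_cosetFun_mdifferentiable {N : ℕ} {k : ℤ} {φ : ℍ → ℂ} (h : IsMF N k φ) (q : Q N) :
    MDiff (cosetFun N k φ q) :=
  h.holo.slash k _

theorem isMF_cosetFun_isBoundedAtImInfty {N : ℕ} {k : ℤ} {φ : ℍ → ℂ} (h : IsMF N k φ)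
    (q : Q N) : IsBoundedAtImInfty (cosetFun N k φ q) :=
  h.bdd _

/-- Every translate of a modular form, slashed by anything in `SL(2, ℤ)`, is bounded at `i∞`. -/
theorem isMF_cosetFun_slash_isBoundedAtImInfty {N : ℕ} {k : ℤ} {φ : ℍ → ℂ} (h : IsMF N k φ)
    (q : Q N) (γ : SL(2, ℤ)) : IsBoundedAtImInfty ((cosetFun N k φ q) ∣[k] γ) := by
  rw [isMF_cosetFun_slash h]
  exact isMF_cosetFun_isBoundedAtImInfty h _

/-- Translates commute with the Serre derivative. -/
theorem isMF_cosetFun_serreDerivative {N : ℕ} {k : ℤ} {φ : ℍ → ℂ} (h : IsMF N k φ) (q : Q N) :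
    cosetFun N (k + 2) (serreDerivative k φ) q = serreDerivative k (cosetFun N k φ q) := by
  unfold cosetFun
  exact serreDerivative_slash_equivariant h.holo

/-- Translates of a product of a level-one form and a function. -/
theorem cosetFun_levelOne_mul {N : ℕ} {m k : ℤ} (a : ModularForm 𝒮ℒ m) (φ : ℍ → ℂ) (q : Q N) :
    cosetFun N (m + k) ((a : ℍ → ℂ) * φ) q = (a : ℍ → ℂ) * cosetFun N k φ q := by
  unfold cosetFun
  rw [ModularForm.mul_slash_SL2]
  congr 1
  exact SlashInvariantForm.slash_action_eqn a _ (by simp)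

end Fermat.Agent.H93
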