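import Fermat.Agent.H19.Gens
import Fermat.Agent.H93.Glue
import Mathlib.LinearAlgebra.Matrix.Permutation

set_option autoImplicit false

open UpperHalfPlane hiding I
open Real Complex
open scoped Manifold MatrixGroups ModularForm Topology

namespace Fermat.Agent.H93

open Matrix.SpecialLinearGroup CongruenceSubgroup ModularForm
open Fermat.Agent.H19

/-- Every element of `SL(2, ℤ)` lies in `Γ₀(1)`. -/
theorem mem_Gamma0_one (γ : SL(2, ℤ)) : γ ∈ Gamma0 1 := by
  rw [Gamma0_mem]
  exact Subsingleton.elim _ _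

/-- Value of a translate at `γ • z`. -/
theorem isMF_cosetFun_apply_smul {N : ℕ} {k : ℤ} {φ : ℍ → ℂ} (h : IsMF N k φ) (q : Q N)
    (γ : SL(2, ℤ)) (z : ℍ) :
    cosetFun N k φ q (γ • z) = denom γ z ^ k * cosetFun N k φ (γ⁻¹ • q) z := by
  have h1 := congrFun (isMF_cosetFun_slash h q γ) z
  rw [SL_slash_apply] at h1
  rw [← h1]
  have hd : denom γ z ≠ 0 := denom_ne_zero _ z
  rw [mul_comm, mul_assoc, ← zpow_add₀ hd]
  simp

/-- Translates of a product of a level-one form (in the sense of `IsMF 1`) and a function. -/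
theorem cosetFun_isMF_one_mul {N : ℕ} {m k : ℤ} {r : ℍ → ℂ} (hr : IsMF 1 m r) (φ : ℍ → ℂ)
    (q : Q N) : cosetFun N (m + k) (r * φ) q = r * cosetFun N k φ q := by
  unfold cosetFun
  rw [ModularForm.mul_slash_SL2]
  congr 1
  exact hr.inv _ (mem_Gamma0_one _)

theorem prod_zpow_eq_zpow_sum' {ι : Type*} (s : Finset ι) (a : ℂ) (ha : a ≠ 0) (f : ι → ℤ) :
    ∏ i ∈ s, a ^ f i = a ^ ∑ i ∈ s, f i := by
  classical
  induction s using Finset.induction_on with
  | empty => simp
  | insert b s hb ih => rw [Finset.prod_insert hb, Finset.sum_insert hb, ih, zpow_add₀ ha]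

/-- The permutation of the coset space induced by `γ⁻¹`. -/
noncomputable def cosetPerm (N : ℕ) (γ : SL(2, ℤ)) : Equiv.Perm (Q N) :=
  MulAction.toPerm γ⁻¹

@[simp] theorem cosetPerm_apply {N : ℕ} (γ : SL(2, ℤ)) (q : Q N) :
    cosetPerm N γ q = γ⁻¹ • q := rfl

section

variable {N : ℕ} [NeZero N]

/-- The determinant of the coset matrix of a family of modular forms. -/
noncomputable def minorFun (N : ℕ) [NeZero N] (κ : Q N → ℤ) (φ : Q N → ℍ → ℂ) : ℍ → ℂ :=
  fun z => (Phi N κ φ z).det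

theorem minorFun_eq_detFun (κ : Q N → ℤ) (φ : Q N → ℍ → ℂ) :
    minorFun N κ φ = detFun (fun q i => cosetFun N (κ i) (φ i) q) := rfl

theorem minorFun_mdifferentiable {κ : Q N → ℤ} {φ : Q N → ℍ → ℂ}
    (hφ : ∀ i, IsMF N (κ i) (φ i)) : MDiff (minorFun N κ φ) := by
  rw [minorFun_eq_detFun]
  exact detFun_mdifferentiable _ fun q i => isMF_cosetFun_mdifferentiable (hφ i) q

theorem isBoundedAtImInfty_finset_prod {ι : Type*} (s : Finset ι) (g : ι → ℍ → ℂ)
    (hg : ∀ i ∈ s, IsBoundedAtImInfty (g i)) : IsBoundedAtImInfty (fun z => ∏ i ∈ s, g i z) := by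
  classical
  induction s using Finset.induction_on with
  | empty =>
    simp only [Finset.prod_empty]
    exact Filter.const_boundedAtFilter _ (1 : ℂ)
  | insert a s ha ih =>
    simp only [Finset.prod_insert ha]
    exact (hg a (Finset.mem_insert_self _ _)).mul
      (ih fun i hi => hg i (Finset.mem_insert_of_mem hi))

theorem isBoundedAtImInfty_finset_sum {ι : Type*} (s : Finset ι) (g : ι → ℍ → ℂ)
    (hg : ∀ i ∈ s, IsBoundedAtImInfty (g i)) : IsBoundedAtImInfty (fun z => ∑ i ∈ s, g i z) := by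
  classical
  induction s using Finset.induction_on with
  | empty =>
    simp only [Finset.sum_empty]
    exact Filter.const_boundedAtFilter _ (0 : ℂ)
  | insert a s ha ih =>
    simp only [Finset.sum_insert ha]
    exact (hg a (Finset.mem_insert_self _ _)).add
      (ih fun i hi => hg i (Finset.mem_insert_of_mem hi))

theorem minorFun_isBoundedAtImInfty {κ : Q N → ℤ} {φ : Q N → ℍ → ℂ}
    (hφ : ∀ i, IsMF N (κ i) (φ i)) : IsBoundedAtImInfty (minorFun N κ φ) := by
  have : minorFun N κ φ = fun z => ∑ σ : Equiv.Perm (Q N), ((Equiv.Perm.sign σ : ℤ) : ℂ) *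
      ∏ i, cosetFun N (κ i) (φ i) (σ i) z := by
    funext z
    simp [minorFun, Phi, Matrix.det_apply']
  rw [this]
  refine isBoundedAtImInfty_finset_sum _ _ fun σ _ => ?_
  have hc : IsBoundedAtImInfty (fun _ : ℍ => (((Equiv.Perm.sign σ : ℤ) : ℂ))) :=
    Filter.const_boundedAtFilter _ _
  exact hc.mul (isBoundedAtImInfty_finset_prod _ _ fun i _ =>
    isMF_cosetFun_isBoundedAtImInfty (hφ i) _)

/-- Transformation law of the determinant of a coset matrix. -/
theorem minorFun_apply_smul {κ : Q N → ℤ} {φ : Q N → ℍ → ℂ}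
    (hφ : ∀ i, IsMF N (κ i) (φ i)) (γ : SL(2, ℤ)) (z : ℍ) :
    minorFun N κ φ (γ • z) =
      ((Equiv.Perm.sign (cosetPerm N γ) : ℤ) : ℂ) * denom γ z ^ (∑ i, κ i) *
        minorFun N κ φ z := by
  have hd : denom γ z ≠ 0 := denom_ne_zero _ z
  have hmat : Phi N κ φ (γ • z) =
      (Phi N κ φ z).submatrix (cosetPerm N γ) id * Matrix.diagonal fun i => denom γ z ^ κ i := by
    ext q i
    simp only [Phi, Matrix.of_apply, Matrix.mul_diagonal, Matrix.submatrix_apply, id_eq,
      cosetPerm_apply]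
    rw [isMF_cosetFun_apply_smul (hφ i), mul_comm]
  simp only [minorFun]
  rw [hmat, Matrix.det_mul, Matrix.det_permute, Matrix.det_diagonal,
    prod_zpow_eq_zpow_sum' _ _ hd]
  ring

end

end Fermat.Agent.H93

namespace Fermat.Agent.H93

open Matrix.SpecialLinearGroup CongruenceSubgroup ModularForm
open Fermat.Agent.H19

theorem isMF_congr_weight {N : ℕ} {k k' : ℤ} {φ : ℍ → ℂ} (hk : k = k') (h : IsMF N k φ) :
    IsMF N k' φ := hk ▸ h

theorem isMF_neg {N : ℕ} {k : ℤ} {φ : ℍ → ℂ} (h : IsMF N k φ) : IsMF N k (-φ) where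
  holo := h.holo.neg
  inv γ hγ := by rw [SlashAction.neg_slash, h.inv γ hγ]
  bdd g := by
    rw [SlashAction.neg_slash]
    exact (h.bdd g).neg

section

variable {N : ℕ} [NeZero N]

/-- The product of two coset determinants is a level-one modular form. -/
theorem isMF_one_minorFun_mul {κ κ' : Q N → ℤ} {φ φ' : Q N → ℍ → ℂ}
    (hφ : ∀ i, IsMF N (κ i) (φ i)) (hφ' : ∀ i, IsMF N (κ' i) (φ' i)) :
    IsMF 1 ((∑ i, κ i) + (∑ i, κ' i)) (minorFun N κ φ * minorFun N κ' φ') := by
  have hinv : ∀ γ : SL(2, ℤ), (minorFun N κ φ * minorFun N κ' φ') ∣[(∑ i, κ i) + (∑ i, κ' i)] γ =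
      minorFun N κ φ * minorFun N κ' φ' := by
    intro γ
    ext z
    have hd : denom γ z ≠ 0 := denom_ne_zero _ z
    rw [SL_slash_apply, Pi.mul_apply, minorFun_apply_smul hφ, minorFun_apply_smul hφ',
      Pi.mul_apply, neg_add, zpow_add₀ hd, zpow_neg, zpow_neg]
    have hs : (((Equiv.Perm.sign (cosetPerm N γ) : ℤ) : ℂ)) *
        (((Equiv.Perm.sign (cosetPerm N γ) : ℤ) : ℂ)) = 1 := by
      rw [← Int.cast_mul, ← Units.val_mul, Int.units_mul_self]
      simp
    have h1 : denom γ z ^ (∑ i, κ i) ≠ 0 := zpow_ne_zero _ hd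
    have h2 : denom γ z ^ (∑ i, κ' i) ≠ 0 := zpow_ne_zero _ hd
    field_simp
    linear_combination (minorFun N κ φ z * minorFun N κ' φ' z) * hs
  refine ⟨(minorFun_mdifferentiable hφ).mul (minorFun_mdifferentiable hφ'),
    fun γ _ => hinv γ, fun g => ?_⟩
  rw [hinv g]
  exact (minorFun_isBoundedAtImInfty hφ).mul (minorFun_isBoundedAtImInfty hφ')

end

end Fermat.Agent.H93
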