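import Mathlib.NumberTheory.ModularForms.Discriminant
import Mathlib.NumberTheory.ModularForms.Derivative

set_option autoImplicit false

open UpperHalfPlane hiding I
open Real Complex
open scoped Manifold MatrixGroups ModularForm Topology

namespace Fermat.Agent.H93

open Derivative ModularForm EisensteinSeries

/-- Ramanujan: `D Δ = E₂ Δ`. -/
theorem normalizedDeriv_discriminant (z : ℍ) :
    normalizedDerivOfComplex ModularForm.discriminant z = E2 z * ModularForm.discriminant z := by
  have hz : (z : ℂ) ∈ upperHalfPlaneSet := z.2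
  have hη : DifferentiableAt ℂ ModularForm.eta (z : ℂ) :=
    differentiableAt_eta_of_mem_upperHalfPlaneSet hz
  have hne : ModularForm.eta (z : ℂ) ≠ 0 := eta_ne_zero hz
  have hlog := logDeriv_eta_eq_E2 z
  rw [logDeriv_apply] at hlog
  have hderiv : deriv ModularForm.eta (z : ℂ) = (π * I / 12) * E2 z * ModularForm.eta (z : ℂ) := by
    field_simp at hlog ⊢
    linear_combination hlog
  have hcomp : (ModularForm.discriminant ∘ ofComplex) =ᶠ[𝓝 (z : ℂ)]
      fun w ↦ (ModularForm.eta w) ^ 24 := by
    filter_upwards [isOpen_upperHalfPlaneSet.mem_nhds hz] with w hw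
    simp [ModularForm.discriminant, ofComplex_apply_of_im_pos hw]
  have h24 : HasDerivAt (fun w ↦ (ModularForm.eta w) ^ 24)
      (24 * ModularForm.eta (z : ℂ) ^ 23 * deriv ModularForm.eta (z : ℂ)) (z : ℂ) := by
    have := hη.hasDerivAt.fun_pow 24
    simpa using this
  have hpi : (2 * (π : ℂ) * I) ≠ 0 := by
    simp [Real.pi_ne_zero]
  simp only [normalizedDerivOfComplex]
  rw [(h24.congr_of_eventuallyEq hcomp).deriv, hderiv]
  simp only [ModularForm.discriminant]
  field_simp
  ring

end Fermat.Agent.H93
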