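import Fermat.Agent.H93.Minors
import Fermat.Agent.H93.GlueODE
import Mathlib.LinearAlgebra.Matrix.NonsingularInverse
import Mathlib.LinearAlgebra.Dimension.Constructions
import Mathlib.LinearAlgebra.Matrix.ToLin

set_option autoImplicit false

open UpperHalfPlane hiding I
open Real Complex
open scoped Manifold MatrixGroups ModularForm Topology

namespace Fermat.Agent.H93

open Matrix.SpecialLinearGroup CongruenceSubgroup ModularForm
open Fermat.Agent.H19

/-- The translate at the trivial coset is the function itself. -/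
theorem isMF_cosetFun_one {N : ℕ} {k : ℤ} {φ : ℍ → ℂ} (h : IsMF N k φ) :
    cosetFun N k φ ((1 : SL(2, ℤ)) : Q N) = φ := by
  rw [isMF_cosetFun_mk h, inv_one, SlashAction.slash_one]

section

variable {N : ℕ} [NeZero N]

/-- Replacing a column of the coset matrix. -/
theorem Phi_updateCol (κ : Q N → ℤ) (φ : Q N → ℍ → ℂ) (i : Q N) (k₀ : ℤ) (f₀ : ℍ → ℂ) (z : ℍ) :
    (Phi N κ φ z).updateCol i (fun q => cosetFun N k₀ f₀ q z) =
      Phi N (Function.update κ i k₀) (Function.update φ i f₀) z := by
  ext q j
  by_cases hj : j = i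
  · subst hj
    simp [Phi]
  · simp [Phi, hj]

/-- **Cramer relation**: if the coset matrix of the family `f ∘ a` is invertible at one point,
then every generator is among the `f (a i)`. -/
theorem surjective_of_isGens {J : Type} {k : J → ℤ} {f : J → ℍ → ℂ} (h : IsGens N J k f)
    (a : Q N → J) (ha : Function.Injective a) (z₁ : ℍ)
    (hdet : (Phi N (k ∘ a) (f ∘ a) z₁).det ≠ 0) : Function.Surjective a := by
  classical
  intro j₀
  by_contra hj₀
  have hj₀' : ∀ i, a i ≠ j₀ := fun i hi => hj₀ ⟨i, hi⟩
  set κ : Q N → ℤ := k ∘ a with hκ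
  set φ : Q N → ℍ → ℂ := f ∘ a with hφdef
  have hφ : ∀ i, IsMF N (κ i) (φ i) := fun i => h.isMF (a i)
  set W : ℍ → ℂ := minorFun N κ φ with hW
  -- the Cramer minors
  let C : Q N → ℍ → ℂ := fun i =>
    minorFun N (Function.update κ i (k j₀)) (Function.update φ i (f j₀))
  have hupd : ∀ i j, IsMF N (Function.update κ i (k j₀) j) (Function.update φ i (f j₀) j) := by
    intro i j
    by_cases hj : j = i
    · subst hj
      simpa using h.isMF j₀
    · simpa [Function.update_of_ne hj] using hφ j
  have hsumupd : ∀ i, ∑ j, Function.update κ i (k j₀) j = (∑ j, κ j) - κ i + k j₀ := by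
    intro i
    rw [Finset.sum_update_of_mem (Finset.mem_univ i)]
    have := Finset.sum_erase_add Finset.univ κ (Finset.mem_univ i)
    have h2 : ∑ x ∈ Finset.univ \ {i}, κ x = ∑ x ∈ Finset.univ.erase i, κ x := by
      rw [Finset.sdiff_singleton_eq_erase]
    rw [h2]
    linarith
  -- Cramer's rule at the trivial coset
  have hcramer : ∀ z, ∑ i, φ i z * C i z = W z * f j₀ z := by
    intro z
    have h1 := Matrix.mulVec_cramer (Phi N κ φ z) (fun q => cosetFun N (k j₀) (f j₀) q z)
    have h2 := congrFun h1 ((1 : SL(2, ℤ)) : Q N)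
    simp only [Matrix.mulVec, dotProduct, Matrix.cramer_apply, Pi.smul_apply, smul_eq_mul] at h2
    rw [isMF_cosetFun_one (h.isMF j₀)] at h2
    have h3 : W z * f j₀ z = (Phi N κ φ z).det * f j₀ z := rfl
    rw [h3, ← h2]
    refine Finset.sum_congr rfl fun i _ => ?_
    rw [Phi_updateCol]
    simp only [Phi, Matrix.of_apply]
    rw [isMF_cosetFun_one (hφ i)]
    rfl
  -- the relation
  let K : ℤ := 2 * (∑ j, κ j) + k j₀
  let r : J → ℍ → ℂ := fun j =>
    if j = j₀ then -(W * W) else if hj : ∃ i, a i = j then W * C hj.choose else 0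
  have hr_a : ∀ i, r (a i) = W * C i := by
    intro i
    have hex : ∃ i', a i' = a i := ⟨i, rfl⟩
    simp only [r, hj₀' i, if_false, dif_pos hex]
    rw [ha hex.choose_spec]
  have hr_j₀ : r j₀ = -(W * W) := by simp [r]
  let s : Finset J := insert j₀ (Finset.univ.image a)
  have hj₀s : j₀ ∉ Finset.univ.image a := by
    simp only [Finset.mem_image, Finset.mem_univ, true_and, not_exists]
    exact hj₀'
  have hrel : ∑ j ∈ s, r j * f j = 0 := by
    rw [Finset.sum_insert hj₀s, Finset.sum_image (fun x _ y _ hxy => ha hxy), hr_j₀]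
    funext z
    simp only [Pi.add_apply, Pi.mul_apply, Pi.neg_apply, Finset.sum_apply, Pi.zero_apply]
    have : ∑ i, r (a i) z * f (a i) z = W z * ∑ i, φ i z * C i z := by
      rw [Finset.mul_sum]
      refine Finset.sum_congr rfl fun i _ => ?_
      rw [hr_a i]
      simp only [Pi.mul_apply, hφdef, Function.comp_apply]
      ring
    rw [this, hcramer z]
    ring
  have hmf : ∀ j ∈ s, IsMF 1 (K - k j) (r j) := by
    intro j hj
    rcases Finset.mem_insert.mp hj with rfl | hj
    · rw [hr_j₀]
      refine isMF_neg (isMF_congr_weight ?_ (isMF_one_minorFun_mul hφ hφ))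
      simp only [K]; ring
    · obtain ⟨i, -, rfl⟩ := Finset.mem_image.mp hj
      rw [hr_a i]
      refine isMF_congr_weight ?_ (isMF_one_minorFun_mul hφ (hupd i))
      rw [hsumupd i]
      simp only [K, hκ, Function.comp_apply]; ring
  have h0 := h.uniq K s r hmf hrel j₀ (Finset.mem_insert_self _ _)
  rw [hr_j₀] at h0
  have h1 := congrFun h0 z₁
  simp only [Pi.neg_apply, Pi.mul_apply, Pi.zero_apply, neg_eq_zero, mul_self_eq_zero] at h1
  exact hdet h1

end

end Fermat.Agent.H93
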